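/-
S25 piece PUSHFWD-O (helper9191): scheme-level `f_* O = O` universally, without the two-chart bridge.

For `k` algebraically closed, `c : C ⟶ Spec k` proper (universally closed, quasi-compact and
quasi-separated suffice) and `C` integral:
* `isIso_appTop`            : `Γ(Spec k, ⊤) ⟶ Γ(C, ⊤)` is an isomorphism (`Γ(C, O) = k`);
* `isIso_snd_app_of_isAffineOpen` : for `t : T ⟶ Spec k` and `W ⊆ T` affine open,
  `Γ(T, W) ⟶ Γ(C ×ₖ T, pr₂⁻¹ W)` is an isomorphism (flat base change);
* `isIso_snd_app`           : the same for every open `W` (sheaf property);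
* `bijective_snd_appTop`    : `Γ(T, ⊤) → Γ(C ×ₖ T, ⊤)` is bijective for EVERY `k`-scheme `T`.
-/
import Mathlib
import Fermat.Prelude.Def_AlgebraicGeometry_RelativePicardFunctor

set_option autoImplicit false

universe u

open CategoryTheory CategoryTheory.Limits AlgebraicGeometry TopologicalSpace Opposite

namespace Fermat.Agent.S25.DICT.H5688.H9191

variable {k : Type u} [Field k]

/-- `Γ(C, O) = k` for an integral scheme universally closed over an algebraically closed field. -/
theorem isIso_appTop [IsAlgClosed k] {C : Scheme.{u}} (c : C ⟶ Spec (CommRingCat.of k))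
    [UniversallyClosed c] [IsIntegral C] : IsIso c.appTop := by
  let F : CommRingCat.of k ⟶ Γ(C, ⊤) := (Scheme.ΓSpecIso _).inv ≫ c.appTop
  have hF : F.hom.IsIntegral := by
    apply RingHom.isIntegral_respectsIso.2 (e := (Scheme.ΓSpecIso _).symm.commRingCatIsoToRingEquiv)
    exact isIntegral_appTop_of_universallyClosed c
  algebraize [F.hom]
  have hbij : Function.Bijective (algebraMap k Γ(C, ⊤)) :=
    IsAlgClosed.algebraMap_bijective_of_isIntegral
  have hFiso : IsIso F := by
    rw [ConcreteCategory.isIso_iff_bijective]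
    exact hbij
  have : c.appTop = (Scheme.ΓSpecIso _).hom ≫ F := by simp [F]
  rw [this]
  infer_instance

/-- Flat base change of `Γ(C, O) = k`: over an affine open `W` of any `k`-scheme `T`, the
functions on `C ×ₖ W` are the functions on `W`. -/
theorem isIso_snd_app_of_isAffineOpen [IsAlgClosed k] {C T : Scheme.{u}}
    (c : C ⟶ Spec (CommRingCat.of k)) [UniversallyClosed c] [QuasiCompact c] [QuasiSeparated c]
    [IsIntegral C] (t : T ⟶ Spec (CommRingCat.of k)) {W : T.Opens} (hW : IsAffineOpen W) :
    IsIso ((pullback.snd c t).app W) := by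
  have H : IsPullback (pullback.fst c t) (pullback.snd c t) c t := IsPullback.of_hasPullback c t
  have : CompactSpace C := (quasiCompact_iff_compactSpace c).mp inferInstance
  have : QuasiSeparatedSpace C := quasiSeparatedSpace_of_quasiSeparated c
  have hUST : W ≤ t ⁻¹ᵁ ⊤ := le_top
  have hUSX : (⊤ : C.Opens) ≤ c ⁻¹ᵁ ⊤ := le_top
  have hUY : (pullback.snd c t) ⁻¹ᵁ W =
      (pullback.fst c t) ⁻¹ᵁ ⊤ ⊓ (pullback.snd c t) ⁻¹ᵁ W := by simp
  have hiso : IsIso (pushoutSection H hUST hUSX hUY) :=
    isIso_pushoutSection_of_isQuasiSeparated_of_flat_right H hUST hUSX hUY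
      (isAffineOpen_top _) hW isCompact_univ (IsQuasiSeparated.of_quasiSeparatedSpace _)
  have hc : IsIso (c.appLE ⊤ ⊤ hUSX) := by
    have h1 := isIso_appTop c
    have h2 : c.appLE ⊤ ⊤ hUSX = c.appTop := by
      rw [Scheme.Hom.appTop, Scheme.Hom.app_eq_appLE]
      rfl
    rw [h2]
    exact h1
  have hinr : IsIso (pushout.inr (c.appLE ⊤ ⊤ hUSX) (t.appLE ⊤ W hUST)) := inferInstance
  have hfac : (pullback.snd c t).app W =
      pushout.inr (c.appLE ⊤ ⊤ hUSX) (t.appLE ⊤ W hUST) ≫ pushoutSection H hUST hUSX hUY := by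
    rw [pushout.inr_desc, Scheme.Hom.app_eq_appLE]
  rw [hfac]
  infer_instance

/-- `pr₂_* O = O` for `C ×ₖ T ⟶ T`: for every open `W` of any `k`-scheme `T`, the functions on
`C ×ₖ W` are the functions on `W`. -/
theorem isIso_snd_app [IsAlgClosed k] {C T : Scheme.{u}}
    (c : C ⟶ Spec (CommRingCat.of k)) [UniversallyClosed c] [QuasiCompact c] [QuasiSeparated c]
    [IsIntegral C] (t : T ⟶ Spec (CommRingCat.of k)) (W : T.Opens) :
    IsIso ((pullback.snd c t).app W) := by
  let G : TopCat.Sheaf CommRingCat T :=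
    (TopCat.Sheaf.pushforward CommRingCat (pullback.snd c t).base).obj (pullback c t).sheaf
  let φ : T.sheaf ⟶ G := ⟨(pullback.snd c t).c⟩
  have hB : Opens.IsBasis (Set.range (fun V : T.affineOpens => (V : T.Opens))) := by
    rw [Subtype.range_coe]
    exact T.isBasis_affineOpens
  have hφ : IsIso φ :=
    TopCat.Sheaf.isIso_iff_isIso_basis (B := fun V : T.affineOpens => (V : T.Opens)) hB
      (fun V => isIso_snd_app_of_isAffineOpen c t V.2)
  have h2 : IsIso ((TopCat.Sheaf.forget CommRingCat T).map φ) := inferInstance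
  exact (NatIso.isIso_app_of_isIso ((TopCat.Sheaf.forget CommRingCat T).map φ) (op W))

/-- `Γ(T, O) → Γ(C ×ₖ T, O)` is bijective for every `k`-scheme `T`. -/
theorem bijective_snd_appTop [IsAlgClosed k] {C T : Scheme.{u}}
    (c : C ⟶ Spec (CommRingCat.of k)) [UniversallyClosed c] [QuasiCompact c] [QuasiSeparated c]
    [IsIntegral C] (t : T ⟶ Spec (CommRingCat.of k)) :
    Function.Bijective (pullback.snd c t).appTop.hom := by
  have := isIso_snd_app c t ⊤
  exact (ConcreteCategory.isIso_iff_bijective _).mp this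

/-- Open-by-open form of `bijective_snd_appTop`. -/
theorem bijective_snd_app [IsAlgClosed k] {C T : Scheme.{u}}
    (c : C ⟶ Spec (CommRingCat.of k)) [UniversallyClosed c] [QuasiCompact c] [QuasiSeparated c]
    [IsIntegral C] (t : T ⟶ Spec (CommRingCat.of k)) (W : T.Opens) :
    Function.Bijective ((pullback.snd c t).app W).hom := by
  have := isIso_snd_app c t W
  exact (ConcreteCategory.isIso_iff_bijective _).mp this

section Prelude

open AlgebraicGeometry.RelPicard NeronModelInfra

variable [IsAlgClosed k] {C : Scheme.{u}} (c : C ⟶ Spec (CommRingCat.of k)) [IsProper c]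
  [IsIntegral C]

/-- The hypothesis `hO` of the (sep)/(glue) packages, in the exact situation of S25:
`Γ(T, ⊤) → Γ(pullback c t, ⊤)` is bijective for every `T` over `k`. -/
theorem bijective_snd_appTop_of_isProper {T : Scheme.{u}} (t : T ⟶ Spec (CommRingCat.of k)) :
    Function.Bijective (pullback.snd c t).appTop.hom :=
  bijective_snd_appTop c t

theorem surjective_snd_appTop_of_isProper {T : Scheme.{u}} (t : T ⟶ Spec (CommRingCat.of k)) :
    Function.Surjective (pullback.snd c t).appTop.hom :=
  (bijective_snd_appTop c t).2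

omit [IsAlgClosed k] [IsProper c] [IsIntegral C] in
theorem rigSection_snd {T : Scheme.{u}} (t : T ⟶ Spec (CommRingCat.of k))
    (ε : SchemeHomOver (𝟙 (Spec (CommRingCat.of k))) c) :
    rigSection c t ε ≫ pullback.snd c t = 𝟙 T := by
  unfold rigSection
  exact pullback.lift_snd _ _ _

/-- A global function on `C ×ₖ T` is the pullback of its restriction along the rigidifying
section. -/
theorem snd_appTop_rigSection_appTop {T : Scheme.{u}} (t : T ⟶ Spec (CommRingCat.of k))
    (ε : SchemeHomOver (𝟙 (Spec (CommRingCat.of k))) c) (s : Γ(pullback c t, ⊤)) :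
    (pullback.snd c t).appTop.hom ((rigSection c t ε).appTop.hom s) = s := by
  obtain ⟨a, rfl⟩ := (bijective_snd_appTop c t).2 s
  have h : (pullback.snd c t).appTop ≫ (rigSection c t ε).appTop = 𝟙 _ := by
    rw [← Scheme.Hom.comp_appTop, rigSection_snd]
    rfl
  have h' := congrArg (fun φ => φ.hom a) h
  simp only [CommRingCat.hom_comp, RingHom.comp_apply] at h'
  rw [h']
  rfl

/-- Two global functions on `C ×ₖ T` agreeing along the rigidifying section are equal. -/
theorem eq_of_rigSection_appTop_eq {T : Scheme.{u}} (t : T ⟶ Spec (CommRingCat.of k))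
    (ε : SchemeHomOver (𝟙 (Spec (CommRingCat.of k))) c) (s s' : Γ(pullback c t, ⊤))
    (h : (rigSection c t ε).appTop.hom s = (rigSection c t ε).appTop.hom s') : s = s' := by
  rw [← snd_appTop_rigSection_appTop c t ε s, ← snd_appTop_rigSection_appTop c t ε s', h]

end Prelude

end Fermat.Agent.S25.DICT.H5688.H9191
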